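/-
GATE-Z (S15) / [MOD-beta] VOCABULARY PIN (helper72): the Tate curve over a complete ultrametric
normed field.  Definitions + elementary norm facts + summability + the three functional equations.

PIN (for the owners of T0–T6, board 4947 §3 / 5685):

* FIELD: an abstract `K` with `[NormedField K] [IsUltrametricDist K] [CompleteSpace K]`; `q : K` with
  `0 < ‖q‖ < 1` (hypotheses `hq0 : q ≠ 0`, `hq1 : ‖q‖ < 1` are passed explicitly, never bundled).
  The concrete field at the (MOD) seam is Mathlib's `ℂ_[ℓ]` (`PadicComplex ℓ`: complete, ultrametric,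
  algebraically closed, characteristic zero); nothing in `GZ/Tate/**` may depend on that choice.
* SERIES are `tsum`s in `K` (NOT formal power series): `sK k q = ∑_{n ≥ 1} n^k q^n / (1 - q^n)`,
  `X q u = ∑_{n ∈ ℤ} xTerm (q^n u) - 2 s₁(q)`, `Y q u = ∑_{n ∈ ℤ} yTerm (q^n u) + s₁(q)` with
  `xTerm w = w / (1 - w)^2`, `yTerm w = w^2 / (1 - w)^3`  (Silverman, Advanced Topics V.3.1).
  Index sets: `ℕ` shifted by one for `sK`, `ℤ` with `zpow` for `X`, `Y`.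
* CURVE: `tateCurve q : WeierstrassCurve K := ⟨1, 0, 0, a4 q, a6 q⟩`, i.e.
  `y² + x y = x³ + a₄ x + a₆`, `a₄ = -5 s₃`, `a₆ = -(5 s₃ + 7 s₅)/12` — the latter written with the
  INTEGER coefficients `a6Coeff n = (5 n³ + 7 n⁵)/12` so that no division by `12` occurs
  (residue characteristics `2`, `3` are needed by S15).  `c₄ = 1 + 240 s₃`, `c₆ = -1 + 504 s₅`.
* A point of `K^× ∖ q^ℤ` is a `u : K` with `hu : IsAdm q u` (`u ≠ 0 ∧ ∀ n : ℤ, q ^ n * u ≠ 1`);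
  `P q u = (X q u, Y q u)`.

Contents of THIS file: the definitions, `IsAdm` (+ `mul_left`, `inv`), `xTerm_inv`, `yTerm_inv`,
`norm_one_sub_of_lt/gt`, `norm_xTerm_of_lt/gt`, `norm_yTerm_of_lt/gt`.
`GZ/Tate/Conv.lean` (next): summability of all series, `X(qu) = X(u)`, `Y(qu) = Y(u)`,
`X(1/u) = X(u)`, `Y(1/u) = -Y(u) - X(u)`, first-order estimates of `X`, `Y` on `|q| < |u| < 1`.
-/
import Mathlib

set_option autoImplicit false

noncomputable section

namespace Fermat.Agent.GZ.Tate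

open Filter Topology

variable {K : Type*} [NormedField K] [IsUltrametricDist K]

/-! ### definitions -/

/-- the general term of the Lambert series `s_k`. -/
def sTerm (k : ℕ) (q : K) (n : ℕ) : K := ((n + 1 : ℕ) : K) ^ k * q ^ (n + 1) / (1 - q ^ (n + 1))

/-- the Lambert series `s_k(q) = ∑_{n ≥ 1} n^k q^n / (1 - q^n)`. -/
def sK (k : ℕ) (q : K) : K := ∑' n : ℕ, sTerm k q n

/-- the integer `(5 n³ + 7 n⁵) / 12`. -/
def a6Coeff (n : ℕ) : ℕ := (5 * n ^ 3 + 7 * n ^ 5) / 12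

/-- `12 ∣ 5 n³ + 7 n⁵`. -/
theorem twelve_dvd (n : ℕ) : 12 ∣ 5 * n ^ 3 + 7 * n ^ 5 := by
  have h : (5 * n ^ 3 + 7 * n ^ 5) % 12 = 0 := by
    have h12 : n % 12 < 12 := Nat.mod_lt _ (by norm_num)
    have : (5 * n ^ 3 + 7 * n ^ 5) % 12 = (5 * (n % 12) ^ 3 + 7 * (n % 12) ^ 5) % 12 := by
      simp [Nat.add_mod, Nat.mul_mod, Nat.pow_mod]
    rw [this]
    generalize n % 12 = r at h12
    interval_cases r <;> rfl
  exact Nat.dvd_of_mod_eq_zero h

theorem a6Coeff_spec (n : ℕ) : 12 * a6Coeff n = 5 * n ^ 3 + 7 * n ^ 5 :=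
  Nat.mul_div_cancel' (twelve_dvd n)

/-- the general term of the series of `a₆`. -/
def a6Term (q : K) (n : ℕ) : K := (a6Coeff (n + 1) : K) * q ^ (n + 1) / (1 - q ^ (n + 1))

/-- `a₄(q) = -5 s₃(q)`. -/
def a4 (q : K) : K := -5 * sK 3 q

/-- `a₆(q) = -(5 s₃(q) + 7 s₅(q)) / 12`, with integer coefficients. -/
def a6 (q : K) : K := -∑' n : ℕ, a6Term q n

/-- **the Tate curve** `y² + x y = x³ + a₄(q) x + a₆(q)`. -/
def tateCurve (q : K) : WeierstrassCurve K := ⟨1, 0, 0, a4 q, a6 q⟩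

/-- `w / (1 - w)²`. -/
def xTerm (w : K) : K := w / (1 - w) ^ 2

/-- `w² / (1 - w)³`. -/
def yTerm (w : K) : K := w ^ 2 / (1 - w) ^ 3

/-- `X(u, q) = ∑_{n ∈ ℤ} q^n u / (1 - q^n u)² - 2 s₁(q)`. -/
def X (q u : K) : K := ∑' n : ℤ, xTerm (q ^ n * u) - 2 * sK 1 q

/-- `Y(u, q) = ∑_{n ∈ ℤ} (q^n u)² / (1 - q^n u)³ + s₁(q)`. -/
def Y (q u : K) : K := ∑' n : ℤ, yTerm (q ^ n * u) + sK 1 q

/-- `u ∈ K^× ∖ q^ℤ` in the form used everywhere: `u ≠ 0` and no `q^n u` equals `1`. -/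
def IsAdm (q u : K) : Prop := u ≠ 0 ∧ ∀ n : ℤ, q ^ n * u ≠ 1

omit [IsUltrametricDist K] in
theorem IsAdm.ne_zero {q u : K} (h : IsAdm q u) : u ≠ 0 := h.1

omit [IsUltrametricDist K] in
theorem IsAdm.ne_one {q u : K} (h : IsAdm q u) (n : ℤ) : q ^ n * u ≠ 1 := h.2 n

omit [IsUltrametricDist K] in
theorem IsAdm.mul_left {q u : K} (hq0 : q ≠ 0) (h : IsAdm q u) : IsAdm q (q * u) := by
  refine ⟨mul_ne_zero hq0 h.1, fun n => ?_⟩
  have := h.2 (n + 1)
  rwa [zpow_add₀ hq0, zpow_one, mul_assoc] at this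

omit [IsUltrametricDist K] in
theorem IsAdm.inv {q u : K} (h : IsAdm q u) : IsAdm q u⁻¹ := by
  refine ⟨inv_ne_zero h.1, fun n hn => ?_⟩
  apply h.2 (-n)
  have hu := h.1
  have h1 : q ^ n = u := by
    field_simp at hn
    exact hn
  rw [zpow_neg, h1, inv_mul_cancel₀ hu]

/-! ### elementary identities of the terms -/

omit [IsUltrametricDist K] in
theorem xTerm_inv {w : K} (hw : w ≠ 0) : xTerm w⁻¹ = xTerm w := by
  unfold xTerm
  by_cases h1 : w = 1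
  · subst h1; simp
  have h1' : (1 : K) - w ≠ 0 := sub_ne_zero.2 (Ne.symm h1)
  have h2 : (1 : K) - w⁻¹ ≠ 0 := by
    intro h
    apply h1
    have : w⁻¹ = 1 := (sub_eq_zero.1 h).symm
    rw [← inv_inv w, this, inv_one]
  field_simp
  ring

omit [IsUltrametricDist K] in
theorem yTerm_inv {w : K} (hw : w ≠ 0) : yTerm w⁻¹ = -yTerm w - xTerm w := by
  unfold yTerm xTerm
  by_cases h1 : w = 1
  · subst h1; simp
  have h1' : (1 : K) - w ≠ 0 := sub_ne_zero.2 (Ne.symm h1)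
  have h2 : (1 : K) - w⁻¹ ≠ 0 := by
    intro h
    apply h1
    have : w⁻¹ = 1 := (sub_eq_zero.1 h).symm
    rw [← inv_inv w, this, inv_one]
  field_simp
  ring

/-! ### norms -/

theorem norm_one_sub_of_lt {w : K} (hw : ‖w‖ < 1) : ‖1 - w‖ = 1 := by
  have h := IsUltrametricDist.norm_add_eq_max_of_norm_ne_norm (x := (1 : K)) (y := -w)
    (by rw [norm_one, norm_neg]; exact ne_of_gt hw)
  rw [sub_eq_add_neg, h, norm_one, norm_neg, max_eq_left hw.le]

theorem norm_one_sub_of_gt {w : K} (hw : 1 < ‖w‖) : ‖1 - w‖ = ‖w‖ := by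
  have h := IsUltrametricDist.norm_add_eq_max_of_norm_ne_norm (x := (1 : K)) (y := -w)
    (by rw [norm_one, norm_neg]; exact ne_of_lt hw)
  rw [sub_eq_add_neg, h, norm_one, norm_neg, max_eq_right hw.le]

theorem norm_xTerm_of_lt {w : K} (hw : ‖w‖ < 1) : ‖xTerm w‖ = ‖w‖ := by
  unfold xTerm
  rw [norm_div, norm_pow, norm_one_sub_of_lt hw, one_pow, div_one]

theorem norm_xTerm_of_gt {w : K} (hw : 1 < ‖w‖) : ‖xTerm w‖ = ‖w‖⁻¹ := by
  unfold xTerm
  have h0 : ‖w‖ ≠ 0 := by positivity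
  rw [norm_div, norm_pow, norm_one_sub_of_gt hw]
  field_simp

theorem norm_yTerm_of_lt {w : K} (hw : ‖w‖ < 1) : ‖yTerm w‖ = ‖w‖ ^ 2 := by
  unfold yTerm
  rw [norm_div, norm_pow, norm_pow, norm_one_sub_of_lt hw, one_pow, div_one]

theorem norm_yTerm_of_gt {w : K} (hw : 1 < ‖w‖) : ‖yTerm w‖ = ‖w‖⁻¹ := by
  unfold yTerm
  have h0 : ‖w‖ ≠ 0 := by positivity
  rw [norm_div, norm_pow, norm_pow, norm_one_sub_of_gt hw]
  field_simp

end Fermat.Agent.GZ.Tate
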