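/-
GATE-Z (S15) / [MOD-beta] (T1) core, part 1 (helper72): convergence and functional equations of the
Tate series of `GZ/Tate/Defs.lean`.

`K` complete ultrametric normed field, `q ≠ 0`, `‖q‖ < 1`.

* `summable_sTerm`, `summable_a6Term`                : the Lambert series converge;
* `summable_xTerm_zpow`, `summable_yTerm_zpow`       : the `ℤ`-indexed series of `X`, `Y` converge
                                                        (any `u ≠ 0`);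
* `X_mul_left`, `Y_mul_left`                          : `X(qu) = X(u)`, `Y(qu) = Y(u)`;
* `X_zpow_mul`, `Y_zpow_mul`                          : the same for `q ^ n`, `n : ℤ`;
* `X_inv`, `Y_inv`                                    : `X(u⁻¹) = X(u)`, `Y(u⁻¹) = -Y(u) - X(u)`;
* `norm_sK_le`, `norm_a4_le`, `norm_a6_le`            : `‖s_k(q)‖, ‖a₄‖, ‖a₆‖ ≤ ‖q‖`;
* `norm_X_sub_xTerm_le`, `norm_Y_sub_yTerm_le`        : on `‖q‖ < ‖u‖ < ‖q‖⁻¹` the terms `n ≠ 0` are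
                                                        bounded by `max (‖q‖‖u‖) (‖q‖/‖u‖)`;
* `norm_X_lt_one`, `norm_Y_lt_one`                    : `‖q‖ < ‖u‖ < 1 ⟹ ‖X‖, ‖Y‖ < 1`
                                                        (`P(u)` reduces to the node, input of T4).
-/
import Mathlib
import Fermat.Agent.GZ.Tate.Defs

set_option autoImplicit false

noncomputable section

namespace Fermat.Agent.GZ.Tate

open Filter Topology

variable {K : Type*} [NormedField K] [IsUltrametricDist K]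

/-! ### the terms near `0` -/

omit [IsUltrametricDist K] in
theorem continuousAt_xTerm_zero : ContinuousAt (xTerm : K → K) 0 := by
  unfold xTerm
  refine ContinuousAt.div continuousAt_id ?_ (by simp)
  exact ((continuousAt_const.sub continuousAt_id).pow 2)

omit [IsUltrametricDist K] in
theorem continuousAt_yTerm_zero : ContinuousAt (yTerm : K → K) 0 := by
  unfold yTerm
  refine ContinuousAt.div (continuousAt_id.pow 2) ?_ (by simp)
  exact ((continuousAt_const.sub continuousAt_id).pow 3)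

omit [IsUltrametricDist K] in
@[simp] theorem xTerm_zero : xTerm (0 : K) = 0 := by simp [xTerm]

omit [IsUltrametricDist K] in
@[simp] theorem yTerm_zero : yTerm (0 : K) = 0 := by simp [yTerm]

omit [IsUltrametricDist K] in
theorem tendsto_xTerm {α : Type*} {l : Filter α} {w : α → K} (h : Tendsto w l (𝓝 0)) :
    Tendsto (fun a => xTerm (w a)) l (𝓝 0) := by
  have := (continuousAt_xTerm_zero (K := K)).tendsto.comp h
  rwa [xTerm_zero] at this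

omit [IsUltrametricDist K] in
theorem tendsto_yTerm {α : Type*} {l : Filter α} {w : α → K} (h : Tendsto w l (𝓝 0)) :
    Tendsto (fun a => yTerm (w a)) l (𝓝 0) := by
  have := (continuousAt_yTerm_zero (K := K)).tendsto.comp h
  rwa [yTerm_zero] at this

omit [IsUltrametricDist K] in
theorem tendsto_pow_succ_mul {q : K} (hq1 : ‖q‖ < 1) (c : K) :
    Tendsto (fun n : ℕ => q ^ (n + 1) * c) atTop (𝓝 0) := by
  have h := ((tendsto_pow_atTop_nhds_zero_of_norm_lt_one hq1).comp (tendsto_add_atTop_nat 1)).mul_const c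
  simpa using h

omit [IsUltrametricDist K] in
theorem tendsto_pow_mul {q : K} (hq1 : ‖q‖ < 1) (c : K) :
    Tendsto (fun n : ℕ => q ^ n * c) atTop (𝓝 0) := by
  have h := (tendsto_pow_atTop_nhds_zero_of_norm_lt_one hq1).mul_const c
  simpa using h

/-! ### norms of the Lambert terms -/

omit [IsUltrametricDist K] in
theorem norm_pow_succ_lt_one {q : K} (hq1 : ‖q‖ < 1) (n : ℕ) : ‖q ^ (n + 1)‖ < 1 := by
  rw [norm_pow]
  exact pow_lt_one₀ (norm_nonneg q) hq1 (Nat.succ_ne_zero n)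

omit [IsUltrametricDist K] in
theorem norm_pow_succ_le {q : K} (hq1 : ‖q‖ < 1) (n : ℕ) : ‖q ^ (n + 1)‖ ≤ ‖q‖ := by
  rw [norm_pow]
  calc ‖q‖ ^ (n + 1) = ‖q‖ ^ n * ‖q‖ := pow_succ _ _
    _ ≤ 1 * ‖q‖ := by
        apply mul_le_mul_of_nonneg_right _ (norm_nonneg q)
        exact pow_le_one₀ (norm_nonneg q) hq1.le
    _ = ‖q‖ := one_mul _

theorem norm_sTerm_le (k : ℕ) {q : K} (hq1 : ‖q‖ < 1) (n : ℕ) : ‖sTerm k q n‖ ≤ ‖q ^ (n + 1)‖ := by
  unfold sTerm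
  rw [norm_div, norm_mul, norm_pow, norm_one_sub_of_lt (norm_pow_succ_lt_one hq1 n), div_one]
  calc ‖((n + 1 : ℕ) : K)‖ ^ k * ‖q ^ (n + 1)‖ ≤ 1 * ‖q ^ (n + 1)‖ := by
        apply mul_le_mul_of_nonneg_right _ (norm_nonneg _)
        exact pow_le_one₀ (norm_nonneg _) (IsUltrametricDist.norm_natCast_le_one K _)
    _ = ‖q ^ (n + 1)‖ := one_mul _

theorem norm_a6Term_le {q : K} (hq1 : ‖q‖ < 1) (n : ℕ) : ‖a6Term q n‖ ≤ ‖q ^ (n + 1)‖ := by
  unfold a6Term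
  rw [norm_div, norm_mul, norm_one_sub_of_lt (norm_pow_succ_lt_one hq1 n), div_one]
  calc ‖(a6Coeff (n + 1) : K)‖ * ‖q ^ (n + 1)‖ ≤ 1 * ‖q ^ (n + 1)‖ := by
        apply mul_le_mul_of_nonneg_right _ (norm_nonneg _)
        exact IsUltrametricDist.norm_natCast_le_one K _
    _ = ‖q ^ (n + 1)‖ := one_mul _

theorem tendsto_sTerm (k : ℕ) {q : K} (hq1 : ‖q‖ < 1) : Tendsto (sTerm k q) atTop (𝓝 0) := by
  have h0 : Tendsto (fun n : ℕ => q ^ (n + 1)) atTop (𝓝 0) := by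
    simpa using tendsto_pow_succ_mul hq1 (1 : K)
  exact squeeze_zero_norm (norm_sTerm_le k hq1) (tendsto_zero_iff_norm_tendsto_zero.1 h0)

theorem tendsto_a6Term {q : K} (hq1 : ‖q‖ < 1) : Tendsto (a6Term q) atTop (𝓝 0) := by
  have h0 : Tendsto (fun n : ℕ => q ^ (n + 1)) atTop (𝓝 0) := by
    simpa using tendsto_pow_succ_mul hq1 (1 : K)
  exact squeeze_zero_norm (norm_a6Term_le hq1) (tendsto_zero_iff_norm_tendsto_zero.1 h0)

theorem norm_sK_le (k : ℕ) {q : K} (hq1 : ‖q‖ < 1) : ‖sK k q‖ ≤ ‖q‖ :=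
  IsUltrametricDist.norm_tsum_le_of_forall_le
    fun n => (norm_sTerm_le k hq1 n).trans (norm_pow_succ_le hq1 n)

theorem norm_a4_le {q : K} (hq1 : ‖q‖ < 1) : ‖a4 q‖ ≤ ‖q‖ := by
  unfold a4
  rw [norm_mul, norm_neg]
  calc ‖(5 : K)‖ * ‖sK 3 q‖ ≤ 1 * ‖q‖ := by
        apply mul_le_mul _ (norm_sK_le 3 hq1) (norm_nonneg _) zero_le_one
        have := IsUltrametricDist.norm_natCast_le_one K 5
        simpa using this
    _ = ‖q‖ := one_mul _

theorem norm_a6_le {q : K} (hq1 : ‖q‖ < 1) : ‖a6 q‖ ≤ ‖q‖ := by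
  unfold a6
  rw [norm_neg]
  exact IsUltrametricDist.norm_tsum_le_of_forall_le
    fun n => (norm_a6Term_le hq1 n).trans (norm_pow_succ_le hq1 n)

/-! ### summability -/

section Complete

variable [CompleteSpace K]

theorem summable_of_tendsto_nat {f : ℕ → K} (hf : Tendsto f atTop (𝓝 0)) : Summable f :=
  NonarchimedeanAddGroup.summable_of_tendsto_cofinite_zero (by rwa [Nat.cofinite_eq_atTop])

theorem summable_sTerm (k : ℕ) {q : K} (hq1 : ‖q‖ < 1) : Summable (sTerm k q) :=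
  summable_of_tendsto_nat (tendsto_sTerm k hq1)

theorem summable_a6Term {q : K} (hq1 : ‖q‖ < 1) : Summable (a6Term q) :=
  summable_of_tendsto_nat (tendsto_a6Term hq1)

omit [IsUltrametricDist K] [CompleteSpace K] in
/-- the negative half of the `ℤ`-indexed family, rewritten through `w ↦ w⁻¹`. -/
theorem zpow_neg_succ_mul {q : K} (u : K) (n : ℕ) :
    q ^ (-((n : ℤ) + 1)) * u = (q ^ (n + 1) * u⁻¹)⁻¹ := by
  rw [mul_inv, inv_inv, zpow_neg]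
  congr 1
  rw [← zpow_natCast]
  push_cast
  rfl

theorem summable_xTerm_zpow {q : K} (hq0 : q ≠ 0) (hq1 : ‖q‖ < 1) {u : K} (hu : u ≠ 0) :
    Summable fun n : ℤ => xTerm (q ^ n * u) := by
  refine Summable.of_nat_of_neg_add_one (summable_of_tendsto_nat ?_) (summable_of_tendsto_nat ?_)
  · have h := tendsto_xTerm (tendsto_pow_mul hq1 u)
    simpa only [zpow_natCast] using h
  · have h := tendsto_xTerm (tendsto_pow_succ_mul hq1 u⁻¹)
    refine h.congr fun n => ?_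
    rw [zpow_neg_succ_mul, xTerm_inv (mul_ne_zero (pow_ne_zero _ hq0) (inv_ne_zero hu))]

theorem summable_yTerm_zpow {q : K} (hq0 : q ≠ 0) (hq1 : ‖q‖ < 1) {u : K} (hu : u ≠ 0) :
    Summable fun n : ℤ => yTerm (q ^ n * u) := by
  refine Summable.of_nat_of_neg_add_one (summable_of_tendsto_nat ?_) (summable_of_tendsto_nat ?_)
  · have h := tendsto_yTerm (tendsto_pow_mul hq1 u)
    simpa only [zpow_natCast] using h
  · have h1 := tendsto_yTerm (tendsto_pow_succ_mul hq1 u⁻¹)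
    have h2 := tendsto_xTerm (tendsto_pow_succ_mul hq1 u⁻¹)
    have h := (h1.neg).sub h2
    rw [neg_zero, sub_zero] at h
    refine h.congr fun n => ?_
    rw [zpow_neg_succ_mul, yTerm_inv (mul_ne_zero (pow_ne_zero _ hq0) (inv_ne_zero hu))]

end Complete

/-! ### the functional equations -/

omit [IsUltrametricDist K] in
theorem tsum_zpow_shift {q : K} (hq0 : q ≠ 0) (f : K → K) (u : K) :
    ∑' n : ℤ, f (q ^ n * (q * u)) = ∑' n : ℤ, f (q ^ n * u) := by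
  have h : ∀ n : ℤ, f (q ^ n * (q * u)) = (fun m : ℤ => f (q ^ m * u)) ((Equiv.addRight (1 : ℤ)) n) := by
    intro n
    simp only [Equiv.coe_addRight]
    rw [zpow_add₀ hq0, zpow_one, mul_assoc]
  rw [tsum_congr h]
  exact (Equiv.addRight (1 : ℤ)).tsum_eq fun m : ℤ => f (q ^ m * u)

omit [IsUltrametricDist K] in
/-- `X(qu) = X(u)`. -/
theorem X_mul_left {q : K} (hq0 : q ≠ 0) (u : K) : X q (q * u) = X q u := by
  unfold X
  rw [tsum_zpow_shift hq0 xTerm u]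

omit [IsUltrametricDist K] in
/-- `Y(qu) = Y(u)`. -/
theorem Y_mul_left {q : K} (hq0 : q ≠ 0) (u : K) : Y q (q * u) = Y q u := by
  unfold Y
  rw [tsum_zpow_shift hq0 yTerm u]

omit [IsUltrametricDist K] in
theorem X_pow_mul {q : K} (hq0 : q ≠ 0) (n : ℕ) (u : K) : X q (q ^ n * u) = X q u := by
  induction n with
  | zero => simp
  | succ n ih => rw [pow_succ', mul_assoc, X_mul_left hq0, ih]

omit [IsUltrametricDist K] in
theorem Y_pow_mul {q : K} (hq0 : q ≠ 0) (n : ℕ) (u : K) : Y q (q ^ n * u) = Y q u := by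
  induction n with
  | zero => simp
  | succ n ih => rw [pow_succ', mul_assoc, Y_mul_left hq0, ih]

omit [IsUltrametricDist K] in
/-- `X(qⁿu) = X(u)`, `n : ℤ`. -/
theorem X_zpow_mul {q : K} (hq0 : q ≠ 0) (n : ℤ) (u : K) : X q (q ^ n * u) = X q u := by
  obtain ⟨m, rfl | rfl⟩ := Int.eq_nat_or_neg n
  · rw [zpow_natCast, X_pow_mul hq0]
  · have h := X_pow_mul hq0 m (q ^ (-(m : ℤ)) * u)
    rw [← h, ← mul_assoc, zpow_neg, zpow_natCast, mul_inv_cancel₀ (pow_ne_zero _ hq0), one_mul]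

omit [IsUltrametricDist K] in
/-- `Y(qⁿu) = Y(u)`, `n : ℤ`. -/
theorem Y_zpow_mul {q : K} (hq0 : q ≠ 0) (n : ℤ) (u : K) : Y q (q ^ n * u) = Y q u := by
  obtain ⟨m, rfl | rfl⟩ := Int.eq_nat_or_neg n
  · rw [zpow_natCast, Y_pow_mul hq0]
  · have h := Y_pow_mul hq0 m (q ^ (-(m : ℤ)) * u)
    rw [← h, ← mul_assoc, zpow_neg, zpow_natCast, mul_inv_cancel₀ (pow_ne_zero _ hq0), one_mul]

omit [IsUltrametricDist K] in
theorem zpow_mul_inv_eq {q : K} (u : K) (n : ℤ) : q ^ n * u⁻¹ = (q ^ (-n) * u)⁻¹ := by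
  rw [mul_inv, zpow_neg, inv_inv]

omit [IsUltrametricDist K] in
theorem tsum_zpow_neg {q : K} (f : K → K) (u : K) :
    ∑' n : ℤ, f (q ^ (-n) * u) = ∑' n : ℤ, f (q ^ n * u) :=
  (Equiv.neg ℤ).tsum_eq fun m : ℤ => f (q ^ m * u)

omit [IsUltrametricDist K] in
/-- `X(u⁻¹) = X(u)`. -/
theorem X_inv {q : K} (hq0 : q ≠ 0) {u : K} (hu : u ≠ 0) : X q u⁻¹ = X q u := by
  unfold X
  congr 1
  rw [← tsum_zpow_neg xTerm u]
  refine tsum_congr fun n => ?_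
  rw [zpow_mul_inv_eq, xTerm_inv (mul_ne_zero (zpow_ne_zero _ hq0) hu)]

/-- `Y(u⁻¹) = -Y(u) - X(u)`. -/
theorem Y_inv [CompleteSpace K] {q : K} (hq0 : q ≠ 0) (hq1 : ‖q‖ < 1) {u : K} (hu : u ≠ 0) :
    Y q u⁻¹ = -Y q u - X q u := by
  have hx := summable_xTerm_zpow hq0 hq1 hu
  have hy := summable_yTerm_zpow hq0 hq1 hu
  have h1 : ∑' n : ℤ, yTerm (q ^ n * u⁻¹) = ∑' n : ℤ, (-yTerm (q ^ (-n) * u) - xTerm (q ^ (-n) * u)) := by
    refine tsum_congr fun n => ?_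
    rw [zpow_mul_inv_eq, yTerm_inv (mul_ne_zero (zpow_ne_zero _ hq0) hu)]
  have h2 : ∑' n : ℤ, (-yTerm (q ^ (-n) * u) - xTerm (q ^ (-n) * u))
      = ∑' n : ℤ, (-yTerm (q ^ n * u) - xTerm (q ^ n * u)) :=
    (Equiv.neg ℤ).tsum_eq fun m : ℤ => (-yTerm (q ^ m * u) - xTerm (q ^ m * u))
  have h3 : ∑' n : ℤ, (-yTerm (q ^ n * u) - xTerm (q ^ n * u))
      = -∑' n : ℤ, yTerm (q ^ n * u) - ∑' n : ℤ, xTerm (q ^ n * u) := by
    rw [Summable.tsum_sub hy.neg hx, tsum_neg]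
  unfold Y X
  rw [h1, h2, h3]
  ring

/-! ### first-order estimates -/

theorem norm_sub_le_max' (a b : K) : ‖a - b‖ ≤ max ‖a‖ ‖b‖ := by
  have := IsUltrametricDist.norm_add_le_max a (-b)
  rwa [norm_neg, ← sub_eq_add_neg] at this

section Estimates

variable [CompleteSpace K]

theorem tsum_int_split {f : ℤ → K} (hf : Summable f) :
    ∑' n : ℤ, f n = f 0 + ∑' n : ℕ, f ((n : ℤ) + 1) + ∑' n : ℕ, f (-((n : ℤ) + 1)) := by
  have h1 : Summable fun n : ℕ => f n := hf.comp_injective Nat.cast_injective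
  have hinj : Function.Injective fun n : ℕ => -((n : ℤ) + 1) := fun a b h => by
    have h' : -((a : ℤ) + 1) = -((b : ℤ) + 1) := h
    have : (a : ℤ) = b := by linarith
    exact_mod_cast this
  have h2 : Summable fun n : ℕ => f (-((n : ℤ) + 1)) := hf.comp_injective hinj
  rw [tsum_of_nat_of_neg_add_one h1 h2, h1.tsum_eq_zero_add]
  simp

omit [CompleteSpace K] in
/-- the terms `n ≥ 1`. -/
theorem norm_xTerm_pos_le {q u : K} (hq1 : ‖q‖ < 1) (hu1 : ‖u‖ < ‖q‖⁻¹) (n : ℕ) :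
    ‖xTerm (q ^ ((n : ℤ) + 1) * u)‖ ≤ ‖q‖ * ‖u‖ ∧ ‖yTerm (q ^ ((n : ℤ) + 1) * u)‖ ≤ ‖q‖ * ‖u‖ := by
  have hq0' : 0 ≤ ‖q‖ := norm_nonneg q
  have hw : ‖q ^ ((n : ℤ) + 1) * u‖ ≤ ‖q‖ * ‖u‖ := by
    have : q ^ ((n : ℤ) + 1) = q ^ (n + 1) := by
      rw [← zpow_natCast]; push_cast; rfl
    rw [this, norm_mul]
    exact mul_le_mul_of_nonneg_right (norm_pow_succ_le hq1 n) (norm_nonneg u)
  have hlt : ‖q‖ * ‖u‖ < 1 := by
    rcases eq_or_lt_of_le hq0' with h | h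
    · rw [← h, zero_mul]; exact zero_lt_one
    · calc ‖q‖ * ‖u‖ < ‖q‖ * ‖q‖⁻¹ := mul_lt_mul_of_pos_left hu1 h
        _ = 1 := mul_inv_cancel₀ h.ne'
  have hw1 : ‖q ^ ((n : ℤ) + 1) * u‖ < 1 := lt_of_le_of_lt hw hlt
  refine ⟨by rw [norm_xTerm_of_lt hw1]; exact hw, ?_⟩
  rw [norm_yTerm_of_lt hw1]
  calc ‖q ^ ((n : ℤ) + 1) * u‖ ^ 2 ≤ ‖q ^ ((n : ℤ) + 1) * u‖ := by
        rw [pow_two]
        calc ‖q ^ ((n : ℤ) + 1) * u‖ * ‖q ^ ((n : ℤ) + 1) * u‖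
            ≤ 1 * ‖q ^ ((n : ℤ) + 1) * u‖ :=
              mul_le_mul_of_nonneg_right hw1.le (norm_nonneg _)
          _ = _ := one_mul _
    _ ≤ ‖q‖ * ‖u‖ := hw

omit [CompleteSpace K] in
/-- the terms `n ≤ -1`. -/
theorem norm_xTerm_neg_le {q u : K} (hq0 : q ≠ 0) (hq1 : ‖q‖ < 1) (hu0 : ‖q‖ < ‖u‖) (n : ℕ) :
    ‖xTerm (q ^ (-((n : ℤ) + 1)) * u)‖ ≤ ‖q‖ / ‖u‖ ∧
      ‖yTerm (q ^ (-((n : ℤ) + 1)) * u)‖ ≤ ‖q‖ / ‖u‖ := by
  have hu : u ≠ 0 := by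
    rintro rfl
    rw [norm_zero] at hu0
    exact absurd hu0 (not_lt.2 (norm_nonneg q))
  have hupos : 0 < ‖u‖ := norm_pos_iff.2 hu
  have hv0 : q ^ (n + 1) * u⁻¹ ≠ 0 := mul_ne_zero (pow_ne_zero _ hq0) (inv_ne_zero hu)
  have hv : ‖q ^ (n + 1) * u⁻¹‖ ≤ ‖q‖ / ‖u‖ := by
    rw [norm_mul, norm_inv, div_eq_mul_inv]
    exact mul_le_mul_of_nonneg_right (norm_pow_succ_le hq1 n) (inv_nonneg.2 hupos.le)
  have hlt : ‖q‖ / ‖u‖ < 1 := (div_lt_one hupos).2 hu0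
  have hv1 : ‖q ^ (n + 1) * u⁻¹‖ < 1 := lt_of_le_of_lt hv hlt
  rw [zpow_neg_succ_mul, xTerm_inv hv0, yTerm_inv hv0]
  refine ⟨by rw [norm_xTerm_of_lt hv1]; exact hv, ?_⟩
  have hy : ‖yTerm (q ^ (n + 1) * u⁻¹)‖ ≤ ‖q‖ / ‖u‖ := by
    rw [norm_yTerm_of_lt hv1]
    calc ‖q ^ (n + 1) * u⁻¹‖ ^ 2 ≤ ‖q ^ (n + 1) * u⁻¹‖ := by
          rw [pow_two]
          calc ‖q ^ (n + 1) * u⁻¹‖ * ‖q ^ (n + 1) * u⁻¹‖ ≤ 1 * ‖q ^ (n + 1) * u⁻¹‖ :=
                mul_le_mul_of_nonneg_right hv1.le (norm_nonneg _)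
            _ = _ := one_mul _
      _ ≤ ‖q‖ / ‖u‖ := hv
  have hx : ‖xTerm (q ^ (n + 1) * u⁻¹)‖ ≤ ‖q‖ / ‖u‖ := by
    rw [norm_xTerm_of_lt hv1]; exact hv
  calc ‖-yTerm (q ^ (n + 1) * u⁻¹) - xTerm (q ^ (n + 1) * u⁻¹)‖
      ≤ max ‖-yTerm (q ^ (n + 1) * u⁻¹)‖ ‖xTerm (q ^ (n + 1) * u⁻¹)‖ :=
        norm_sub_le_max' _ _
    _ ≤ ‖q‖ / ‖u‖ := max_le (by rw [norm_neg]; exact hy) hx

omit [IsUltrametricDist K] [CompleteSpace K] in
theorem norm_q_le_max {q u : K} (hu : u ≠ 0) : ‖q‖ ≤ max (‖q‖ * ‖u‖) (‖q‖ / ‖u‖) := by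
  have hupos : 0 < ‖u‖ := norm_pos_iff.2 hu
  rcases le_total 1 ‖u‖ with h | h
  · exact le_max_of_le_left (by nlinarith [norm_nonneg q])
  · refine le_max_of_le_right ?_
    rw [le_div_iff₀ hupos]
    nlinarith [norm_nonneg q]

/-- on `‖q‖ < ‖u‖ < ‖q‖⁻¹` the function `X` is `xTerm u` up to `max (‖q‖‖u‖) (‖q‖/‖u‖)`. -/
theorem norm_X_sub_xTerm_le {q u : K} (hq0 : q ≠ 0) (hq1 : ‖q‖ < 1) (hu0 : ‖q‖ < ‖u‖)
    (hu1 : ‖u‖ < ‖q‖⁻¹) : ‖X q u - xTerm u‖ ≤ max (‖q‖ * ‖u‖) (‖q‖ / ‖u‖) := by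
  have hu : u ≠ 0 := by
    rintro rfl
    rw [norm_zero] at hu0
    exact absurd hu0 (not_lt.2 (norm_nonneg q))
  have hs := summable_xTerm_zpow hq0 hq1 hu
  have hsplit := tsum_int_split hs
  simp only [zpow_zero, one_mul] at hsplit
  have hC : 0 ≤ max (‖q‖ * ‖u‖) (‖q‖ / ‖u‖) :=
    le_max_of_le_left (mul_nonneg (norm_nonneg _) (norm_nonneg _))
  have e : X q u - xTerm u = (∑' n : ℕ, xTerm (q ^ ((n : ℤ) + 1) * u) +
      ∑' n : ℕ, xTerm (q ^ (-((n : ℤ) + 1)) * u)) - 2 * sK 1 q := by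
    unfold X
    rw [hsplit]; ring
  rw [e]
  refine (norm_sub_le_max' _ _).trans (max_le ?_ ?_)
  · refine (IsUltrametricDist.norm_add_le_max _ _).trans (max_le ?_ ?_)
    · exact IsUltrametricDist.norm_tsum_le_of_forall_le_of_nonneg hC fun n =>
        (norm_xTerm_pos_le hq1 hu1 n).1.trans (le_max_left _ _)
    · exact IsUltrametricDist.norm_tsum_le_of_forall_le_of_nonneg hC fun n =>
        (norm_xTerm_neg_le hq0 hq1 hu0 n).1.trans (le_max_right _ _)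
  · rw [norm_mul]
    have h2 : ‖(2 : K)‖ ≤ 1 := by
      have := IsUltrametricDist.norm_natCast_le_one K 2
      simpa using this
    calc ‖(2 : K)‖ * ‖sK 1 q‖ ≤ 1 * ‖q‖ :=
          mul_le_mul h2 (norm_sK_le 1 hq1) (norm_nonneg _) zero_le_one
      _ = ‖q‖ := one_mul _
      _ ≤ _ := norm_q_le_max hu

/-- on `‖q‖ < ‖u‖ < ‖q‖⁻¹` the function `Y` is `yTerm u` up to `max (‖q‖‖u‖) (‖q‖/‖u‖)`. -/
theorem norm_Y_sub_yTerm_le {q u : K} (hq0 : q ≠ 0) (hq1 : ‖q‖ < 1) (hu0 : ‖q‖ < ‖u‖)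
    (hu1 : ‖u‖ < ‖q‖⁻¹) : ‖Y q u - yTerm u‖ ≤ max (‖q‖ * ‖u‖) (‖q‖ / ‖u‖) := by
  have hu : u ≠ 0 := by
    rintro rfl
    rw [norm_zero] at hu0
    exact absurd hu0 (not_lt.2 (norm_nonneg q))
  have hs := summable_yTerm_zpow hq0 hq1 hu
  have hsplit := tsum_int_split hs
  simp only [zpow_zero, one_mul] at hsplit
  have hC : 0 ≤ max (‖q‖ * ‖u‖) (‖q‖ / ‖u‖) :=
    le_max_of_le_left (mul_nonneg (norm_nonneg _) (norm_nonneg _))
  have e : Y q u - yTerm u = (∑' n : ℕ, yTerm (q ^ ((n : ℤ) + 1) * u) +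
      ∑' n : ℕ, yTerm (q ^ (-((n : ℤ) + 1)) * u)) + sK 1 q := by
    unfold Y
    rw [hsplit]; ring
  rw [e]
  refine (IsUltrametricDist.norm_add_le_max _ _).trans (max_le ?_ ?_)
  · refine (IsUltrametricDist.norm_add_le_max _ _).trans (max_le ?_ ?_)
    · exact IsUltrametricDist.norm_tsum_le_of_forall_le_of_nonneg hC fun n =>
        (norm_xTerm_pos_le hq1 hu1 n).2.trans (le_max_left _ _)
    · exact IsUltrametricDist.norm_tsum_le_of_forall_le_of_nonneg hC fun n =>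
        (norm_xTerm_neg_le hq0 hq1 hu0 n).2.trans (le_max_right _ _)
  · exact (norm_sK_le 1 hq1).trans (norm_q_le_max hu)

/-- for `‖q‖ < ‖u‖ < 1` the point `P(u)` reduces to the node: `‖X‖ < 1`. -/
theorem norm_X_lt_one {q u : K} (hq0 : q ≠ 0) (hu0 : ‖q‖ < ‖u‖) (hu1 : ‖u‖ < 1) :
    ‖X q u‖ < 1 := by
  have hq1 : ‖q‖ < 1 := hu0.trans hu1
  have hqpos : 0 < ‖q‖ := norm_pos_iff.2 hq0
  have hupos : 0 < ‖u‖ := hqpos.trans hu0
  have hu1' : ‖u‖ < ‖q‖⁻¹ := hu1.trans ((one_lt_inv₀ hqpos).2 hq1)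
  have h := norm_X_sub_xTerm_le hq0 hq1 hu0 hu1'
  have hC : max (‖q‖ * ‖u‖) (‖q‖ / ‖u‖) < 1 := by
    refine max_lt ?_ ((div_lt_one hupos).2 hu0)
    calc ‖q‖ * ‖u‖ < 1 * 1 := mul_lt_mul'' hq1 hu1 (norm_nonneg _) (norm_nonneg _)
      _ = 1 := one_mul 1
  have e : X q u = (X q u - xTerm u) + xTerm u := by ring
  rw [e]
  refine (IsUltrametricDist.norm_add_le_max _ _).trans_lt (max_lt (h.trans_lt hC) ?_)
  rw [norm_xTerm_of_lt hu1]; exact hu1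

/-- for `‖q‖ < ‖u‖ < 1` the point `P(u)` reduces to the node: `‖Y‖ < 1`. -/
theorem norm_Y_lt_one {q u : K} (hq0 : q ≠ 0) (hu0 : ‖q‖ < ‖u‖) (hu1 : ‖u‖ < 1) :
    ‖Y q u‖ < 1 := by
  have hq1 : ‖q‖ < 1 := hu0.trans hu1
  have hqpos : 0 < ‖q‖ := norm_pos_iff.2 hq0
  have hupos : 0 < ‖u‖ := hqpos.trans hu0
  have hu1' : ‖u‖ < ‖q‖⁻¹ := hu1.trans ((one_lt_inv₀ hqpos).2 hq1)
  have h := norm_Y_sub_yTerm_le hq0 hq1 hu0 hu1'
  have hC : max (‖q‖ * ‖u‖) (‖q‖ / ‖u‖) < 1 := by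
    refine max_lt ?_ ((div_lt_one hupos).2 hu0)
    calc ‖q‖ * ‖u‖ < 1 * 1 := mul_lt_mul'' hq1 hu1 (norm_nonneg _) (norm_nonneg _)
      _ = 1 := one_mul 1
  have e : Y q u = (Y q u - yTerm u) + yTerm u := by ring
  rw [e]
  refine (IsUltrametricDist.norm_add_le_max _ _).trans_lt (max_lt (h.trans_lt hC) ?_)
  rw [norm_yTerm_of_lt hu1]
  calc ‖u‖ ^ 2 < 1 := pow_lt_one₀ (norm_nonneg u) hu1 (by norm_num)

end Estimates

end Fermat.Agent.GZ.Tate
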